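/-
S26lib / Grp / Degree (helper6, Project K): the degree bridge.
For a finite flat dominant morphism of integral schemes, the rank `Scheme.Hom.finrank` equals
the degree of the induced extension of function fields.
-/
import Mathlib

set_option autoImplicit false

noncomputable section

universe u

open CategoryTheory CategoryTheory.Limits AlgebraicGeometry TopologicalSpace TensorProduct

namespace Fermat.Agent.S26lib

section FunctionFieldMap

variable {X Y : Scheme.{u}} [IsIntegral X] [IsIntegral Y] (φ : X ⟶ Y)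

/-- a dominant morphism of integral schemes maps the generic point to the generic point -/
theorem map_genericPoint_of_denseRange (h : DenseRange φ) :
    φ (genericPoint X) = genericPoint Y := by
  apply ((genericPoint_spec Y).eq _).symm
  have := (genericPoint_spec X).image φ.continuous
  rwa [Set.image_univ, h.closure_range] at this

/-- the map of function fields induced by a dominant morphism of integral schemes -/
def ffMap (h : DenseRange φ) : Y.functionField ⟶ X.functionField :=
  Y.presheaf.stalkSpecializes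
      (show φ (genericPoint X) ⤳ genericPoint Y from
        (map_genericPoint_of_denseRange φ h) ▸ specializes_rfl) ≫
    φ.stalkMap (genericPoint X)

theorem germToFunctionField_ffMap (h : DenseRange φ) (U : Y.Opens) [Nonempty U]
    [Nonempty (φ ⁻¹ᵁ U)] :
    Y.germToFunctionField U ≫ ffMap φ h = φ.app U ≫ X.germToFunctionField (φ ⁻¹ᵁ U) := by
  unfold ffMap Scheme.germToFunctionField
  have hmem : φ (genericPoint X) ∈ U := by
    rw [map_genericPoint_of_denseRange φ h]
    exact ((genericPoint_spec Y).mem_open_set_iff U.isOpen).mpr (by simpa using ‹Nonempty U›)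
  rw [← Category.assoc, TopCat.Presheaf.germ_stalkSpecializes]
  exact Scheme.Hom.germ_stalkMap φ U (genericPoint X) hmem

end FunctionFieldMap

section Algebra

/-- generic rank of a finite flat algebra over a domain = degree of the fraction field extension -/
theorem finrank_fractionField_eq_rankAtStalk (B C E F : Type u) [CommRing B] [IsDomain B]
    [CommRing C] [Field E] [Field F] [Algebra B C] [Algebra B E] [Algebra C F] [Algebra E F]
    [Algebra B F] [IsScalarTower B E F] [IsScalarTower B C F] [IsFractionRing B E]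
    [IsFractionRing C F] [Module.Finite B C] [Module.Flat B C] (p : PrimeSpectrum B) :
    Module.finrank E F = Module.rankAtStalk (R := B) C p := by
  rw [IsFractionRing.finrank_eq B E C F, Module.rankAtStalk_eq]
  exact (Ideal.finrank_fiber_eq_finrank (M := C) p.asIdeal).symm

/-- the fraction field extension of a finite etale extension of domains is separable -/
theorem isSeparable_fractionField_of_etale (B C E F : Type u) [CommRing B] [IsDomain B]
    [CommRing C] [Field E] [Field F] [Algebra B C] [Algebra B E] [Algebra C F] [Algebra E F]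
    [Algebra B F] [IsScalarTower B E F] [IsScalarTower B C F] [IsFractionRing B E]
    [IsFractionRing C F] [Module.Finite B C] [Algebra.Etale B C] :
    Algebra.IsSeparable E F := by
  have hinjC : Function.Injective (algebraMap C F) := IsFractionRing.injective C F
  have : NoZeroDivisors C := hinjC.noZeroDivisors _ (map_zero _) (map_mul _)
  have hinjBF : Function.Injective (algebraMap B F) := by
    rw [IsScalarTower.algebraMap_eq B E F]
    exact (algebraMap E F).injective.comp (IsFractionRing.injective B E)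
  have hinjBC : Function.Injective (algebraMap B C) := by
    rw [IsScalarTower.algebraMap_eq B C F] at hinjBF
    exact Function.Injective.of_comp hinjBF
  have : FaithfulSMul B C := (faithfulSMul_iff_algebraMap_injective B C).mpr hinjBC
  have : Algebra.IsAlgebraic B C := inferInstance
  have hpo : Algebra.IsPushout B E C F := inferInstance
  let e : E ⊗[B] C ≃ₐ[E] F := hpo.equiv
  have : Algebra.Etale E F := Algebra.Etale.of_equiv e
  exact (Algebra.FormallyEtale.iff_isSeparable E F).mp inferInstance

end Algebra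

section ChartRank

variable {X Y : Scheme.{u}} (φ : X ⟶ Y) [IsFinite φ] [Flat φ]

/-- the rank of a finite flat morphism, computed on an affine chart of the target -/
theorem finrank_eq_rankAtStalk_of_isAffineOpen {U : Y.Opens} (hU : IsAffineOpen U)
    (b : Spec Γ(Y, U)) :
    φ.finrank (hU.fromSpec b) =
      letI := (φ.app U).hom.toAlgebra
      Module.rankAtStalk (R := Γ(Y, U)) Γ(X, φ ⁻¹ᵁ U) b := by
  have hV : IsAffineOpen (φ ⁻¹ᵁ U) := hU.preimage φ
  have hsq : IsPullback (Spec.map (φ.appLE U (φ ⁻¹ᵁ U) le_rfl)) hV.fromSpec hU.fromSpec φ := by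
    apply IsOpenImmersion.isPullback
    · exact (IsAffineOpen.SpecMap_appLE_fromSpec φ hU hV le_rfl).symm
    · rw [hU.opensRange_fromSpec, hV.opensRange_fromSpec]
  have hfin : IsFinite (Spec.map (φ.appLE U (φ ⁻¹ᵁ U) le_rfl)) :=
    MorphismProperty.of_isPullback hsq.flip inferInstance
  have hflat : Flat (Spec.map (φ.appLE U (φ ⁻¹ᵁ U) le_rfl)) :=
    MorphismProperty.of_isPullback hsq.flip inferInstance
  rw [← Scheme.Hom.finrank_of_isPullback _ _ _ _ hsq.flip b,
    Scheme.Hom.finrank_SpecMap_eq_finrank ((IsFinite.SpecMap_iff _).mp hfin)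
      (Flat.SpecMap_iff.mp hflat), ← Scheme.Hom.app_eq_appLE]
  rfl

/-- sections over an affine chart of the target: finite and flat -/
theorem finite_flat_app {U : Y.Opens} (hU : IsAffineOpen U) :
    (φ.app U).hom.Finite ∧ (φ.app U).hom.Flat := by
  have hV : IsAffineOpen (φ ⁻¹ᵁ U) := hU.preimage φ
  have hsq : IsPullback (Spec.map (φ.appLE U (φ ⁻¹ᵁ U) le_rfl)) hV.fromSpec hU.fromSpec φ := by
    apply IsOpenImmersion.isPullback
    · exact (IsAffineOpen.SpecMap_appLE_fromSpec φ hU hV le_rfl).symm
    · rw [hU.opensRange_fromSpec, hV.opensRange_fromSpec]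
  have hfin : IsFinite (Spec.map (φ.appLE U (φ ⁻¹ᵁ U) le_rfl)) :=
    MorphismProperty.of_isPullback hsq.flip inferInstance
  have hflat : Flat (Spec.map (φ.appLE U (φ ⁻¹ᵁ U) le_rfl)) :=
    MorphismProperty.of_isPullback hsq.flip inferInstance
  rw [Scheme.Hom.app_eq_appLE]
  exact ⟨(IsFinite.SpecMap_iff _).mp hfin, Flat.SpecMap_iff.mp hflat⟩

end ChartRank

section Main

variable {X Y : Scheme.{u}} [IsIntegral X] [IsIntegral Y] (φ : X ⟶ Y) [IsFinite φ] [Flat φ]

/-- **degree bridge**: for a finite flat dominant morphism of integral schemes the degree of the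
function field extension equals the rank of the morphism at every point -/
theorem finrank_functionField_eq_finrank (h : DenseRange φ) (y : Y) :
    letI := (ffMap φ h).hom.toAlgebra
    Module.finrank Y.functionField X.functionField = φ.finrank y := by
  letI : Algebra Y.functionField X.functionField := (ffMap φ h).hom.toAlgebra
  obtain ⟨U, hU, hyU⟩ : ∃ U : Y.Opens, IsAffineOpen U ∧ y ∈ U := by
    obtain ⟨_, ⟨U, hU, rfl⟩, hy, -⟩ :=
      Y.isBasis_affineOpens.exists_subset_of_mem_open (Set.mem_univ y) isOpen_univ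
    exact ⟨U, hU, hy⟩
  have hV : IsAffineOpen (φ ⁻¹ᵁ U) := hU.preimage φ
  haveI : Nonempty U := ⟨⟨y, hyU⟩⟩
  haveI : Nonempty (φ ⁻¹ᵁ U) := by
    obtain ⟨x, hx⟩ := h.exists_mem_open U.isOpen ⟨y, hyU⟩
    exact ⟨⟨x, hx⟩⟩
  have hy' : φ.finrank y = φ.finrank (hU.fromSpec (hU.primeIdealOf ⟨y, hyU⟩)) := by
    rw [hU.fromSpec_primeIdealOf ⟨y, hyU⟩]
  rw [hy', finrank_eq_rankAtStalk_of_isAffineOpen φ hU]
  letI : Algebra Γ(Y, U) Γ(X, φ ⁻¹ᵁ U) := (φ.app U).hom.toAlgebra
  letI : Algebra Γ(Y, U) X.functionField :=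
    ((algebraMap Γ(X, φ ⁻¹ᵁ U) X.functionField).comp (algebraMap Γ(Y, U) Γ(X, φ ⁻¹ᵁ U))).toAlgebra
  haveI : IsScalarTower Γ(Y, U) Γ(X, φ ⁻¹ᵁ U) X.functionField :=
    IsScalarTower.of_algebraMap_eq' rfl
  haveI : IsScalarTower Γ(Y, U) Y.functionField X.functionField := by
    apply IsScalarTower.of_algebraMap_eq'
    have := germToFunctionField_ffMap φ h U
    exact congrArg CommRingCat.Hom.hom this.symm
  haveI := functionField_isFractionRing_of_isAffineOpen Y U hU
  haveI := functionField_isFractionRing_of_isAffineOpen X (φ ⁻¹ᵁ U) hV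
  haveI : Module.Finite Γ(Y, U) Γ(X, φ ⁻¹ᵁ U) := (finite_flat_app φ hU).1
  haveI : Module.Flat Γ(Y, U) Γ(X, φ ⁻¹ᵁ U) := (finite_flat_app φ hU).2
  exact finrank_fractionField_eq_rankAtStalk Γ(Y, U) Γ(X, φ ⁻¹ᵁ U) Y.functionField
    X.functionField _

/-- for a finite etale dominant morphism of integral schemes the function field extension is
separable -/
theorem isSeparable_functionField_of_etale [Etale φ] (h : DenseRange φ) :
    letI := (ffMap φ h).hom.toAlgebra
    Algebra.IsSeparable Y.functionField X.functionField := by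
  letI : Algebra Y.functionField X.functionField := (ffMap φ h).hom.toAlgebra
  obtain ⟨y⟩ : Nonempty Y := inferInstance
  obtain ⟨U, hU, hyU⟩ : ∃ U : Y.Opens, IsAffineOpen U ∧ y ∈ U := by
    obtain ⟨_, ⟨U, hU, rfl⟩, hy, -⟩ :=
      Y.isBasis_affineOpens.exists_subset_of_mem_open (Set.mem_univ y) isOpen_univ
    exact ⟨U, hU, hy⟩
  have hV : IsAffineOpen (φ ⁻¹ᵁ U) := hU.preimage φ
  haveI : Nonempty U := ⟨⟨y, hyU⟩⟩
  haveI : Nonempty (φ ⁻¹ᵁ U) := by
    obtain ⟨x, hx⟩ := h.exists_mem_open U.isOpen ⟨y, hyU⟩
    exact ⟨⟨x, hx⟩⟩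
  letI : Algebra Γ(Y, U) Γ(X, φ ⁻¹ᵁ U) := (φ.app U).hom.toAlgebra
  letI : Algebra Γ(Y, U) X.functionField :=
    ((algebraMap Γ(X, φ ⁻¹ᵁ U) X.functionField).comp (algebraMap Γ(Y, U) Γ(X, φ ⁻¹ᵁ U))).toAlgebra
  haveI : IsScalarTower Γ(Y, U) Γ(X, φ ⁻¹ᵁ U) X.functionField :=
    IsScalarTower.of_algebraMap_eq' rfl
  haveI : IsScalarTower Γ(Y, U) Y.functionField X.functionField := by
    apply IsScalarTower.of_algebraMap_eq'
    have := germToFunctionField_ffMap φ h U
    exact congrArg CommRingCat.Hom.hom this.symm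
  haveI := functionField_isFractionRing_of_isAffineOpen Y U hU
  haveI := functionField_isFractionRing_of_isAffineOpen X (φ ⁻¹ᵁ U) hV
  haveI : Module.Finite Γ(Y, U) Γ(X, φ ⁻¹ᵁ U) := (finite_flat_app φ hU).1
  haveI : Algebra.Etale Γ(Y, U) Γ(X, φ ⁻¹ᵁ U) := by
    have := Etale.etale_appLE φ hU hV le_rfl
    rw [← Scheme.Hom.app_eq_appLE] at this
    exact this
  exact isSeparable_fractionField_of_etale Γ(Y, U) Γ(X, φ ⁻¹ᵁ U) Y.functionField
    X.functionField

end Main

end Fermat.Agent.S26lib
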