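/-
S26lib / Grp / EtalePoints (helper6, Project K, block (P1c) part 2).
A finite etale scheme over an algebraically closed field has exactly `rank` many rational points.
-/
import Mathlib

set_option autoImplicit false

noncomputable section

universe u

open CategoryTheory CategoryTheory.Limits AlgebraicGeometry

namespace Fermat.Agent.S26lib

section Algebra

variable (K : Type u) [Field K] [IsAlgClosed K] (E : Type u) [CommRing E] [Algebra K E]

/-- a finite etale algebra over an algebraically closed field has `finrank` many primes -/
theorem card_primeSpectrum_eq_finrank_of_etale [Algebra.Etale K E] :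
    Nat.card (PrimeSpectrum E) = Module.finrank K E := by
  have : Algebra.EssFiniteType K E := inferInstance
  have : Algebra.FormallyEtale K E := inferInstance
  have : IsSepClosed K := inferInstance
  have e := Algebra.FormallyEtale.equivPiOfIsSepClosed K E
  have : Module.Finite K E := Algebra.FormallyUnramified.finite_of_free K E
  have : IsArtinianRing E := isArtinian_of_tower K inferInstance
  have : Finite (PrimeSpectrum E) := inferInstance
  have := Fintype.ofFinite (PrimeSpectrum E)
  rw [e.toLinearEquiv.finrank_eq, Module.finrank_pi, Nat.card_eq_fintype_card]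

end Algebra

section SpecCase

variable (K : Type u) [Field K] [IsAlgClosed K]

/-- rational points of a finite etale affine scheme over an algebraically closed field -/
theorem card_points_SpecMap (E : CommRingCat.{u}) (ψ : CommRingCat.of K ⟶ E)
    [IsFinite (Spec.map ψ)] [Etale (Spec.map ψ)] :
    Nat.card {p : Spec (CommRingCat.of K) ⟶ Spec E // p ≫ Spec.map ψ = 𝟙 _} =
      (Spec.map ψ).finrank (IsLocalRing.closedPoint K) := by
  have hfin : ψ.hom.Finite := (IsFinite.SpecMap_iff ψ).mp inferInstance
  have het : ψ.hom.Etale := (HasRingHomProperty.Spec_iff (P := @Etale)).mp inferInstance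
  have hflat : ψ.hom.Flat := (RingHom.Etale.iff_flat_and_formallyUnramified.mp het).1
  rw [Scheme.Hom.finrank_SpecMap_eq_finrank hfin hflat]
  algebraize [ψ.hom]
  have : Algebra.Etale K E := het
  have : Module.Finite K E := hfin
  have : IsArtinianRing E := isArtinian_of_tower K inferInstance
  rw [Nat.card_congr (pointEquivClosedPoint (Spec.map ψ))]
  have hcl : closedPoints (Spec E) = Set.univ := by
    ext x
    simp only [Set.mem_univ, iff_true]
    have hx : ∀ y : PrimeSpectrum E, IsClosed ({y} : Set (PrimeSpectrum E)) := fun y =>
      (PrimeSpectrum.isClosed_singleton_iff_isMaximal y).mpr (Ideal.IsPrime.isMaximal' y.isPrime)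
    exact hx x
  rw [hcl, Nat.card_congr (Equiv.Set.univ _)]
  show Nat.card (PrimeSpectrum E) = _
  rw [card_primeSpectrum_eq_finrank_of_etale K E]
  show _ = Module.rankAtStalk (R := K) E _
  rw [Module.rankAtStalk_eq_finrank_of_free]
  rfl

/-- rational points of a finite etale scheme over an algebraically closed field -/
theorem card_points_of_finite_etale (P : Scheme.{u}) (h : P ⟶ Spec (CommRingCat.of K))
    [IsFinite h] [Etale h] :
    Nat.card {p : Spec (CommRingCat.of K) ⟶ P // p ≫ h = 𝟙 _} =
      h.finrank (IsLocalRing.closedPoint K) := by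
  have : IsAffine P := isAffine_of_isAffineHom h
  let i := P.isoSpec
  let h' : Spec Γ(P, ⊤) ⟶ Spec (CommRingCat.of K) := i.inv ≫ h
  let ψ : CommRingCat.of K ⟶ Γ(P, ⊤) := Spec.preimage h'
  have hψ : Spec.map ψ = h' := Spec.map_preimage h'
  have hh : h = i.hom ≫ Spec.map ψ := by rw [hψ]; simp [h']
  have : IsFinite (Spec.map ψ) := by rw [hψ]; infer_instance
  have : Etale (Spec.map ψ) := by rw [hψ]; infer_instance
  have hfr : h.finrank = (Spec.map ψ).finrank := by
    rw [hh]; exact Scheme.Hom.finrank_comp_left_of_isIso i.hom (Spec.map ψ)
  rw [hfr, ← card_points_SpecMap K Γ(P, ⊤) ψ]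
  refine Nat.card_congr
    { toFun := fun p => ⟨p.1 ≫ i.hom, by rw [Category.assoc, ← hh]; exact p.2⟩
      invFun := fun q => ⟨q.1 ≫ i.inv, by
        rw [hh, Category.assoc, Iso.inv_hom_id_assoc]; exact q.2⟩
      left_inv := fun p => by ext1; simp
      right_inv := fun q => by ext1; simp }

end SpecCase

end Fermat.Agent.S26lib
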