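/-
S26lib / Grp / Finite (helper6, Project K, block (P1c) part 1).
An etale endomorphism over a proper base-scheme is finite, flat, of locally constant rank.
-/
import Mathlib
import Fermat.Prelude.Def_JacJ1Iface
import Fermat.Prelude.Def_GoodReductionJacobian_RelativeGroupLawKernel

set_option autoImplicit false

noncomputable section

universe u

open CategoryTheory CategoryTheory.Limits AlgebraicGeometry NeronModelInfra GoodReductionJacobian

namespace Fermat.Agent.S26lib

/-- an etale morphism is locally quasi-finite -/
theorem locallyQuasiFinite_of_etale {X Y : Scheme.{u}} (φ : X ⟶ Y) [Etale φ] :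
    LocallyQuasiFinite φ := by
  refine ⟨fun {U} hU {V} hV e => ?_⟩
  have h := Etale.etale_appLE φ hU hV e
  algebraize [(φ.appLE U V e).hom]
  have : Algebra.Etale Γ(Y, U) Γ(X, V) := h
  show Algebra.QuasiFinite Γ(Y, U) Γ(X, V)
  infer_instance

variable {K : Type u} [Field K] {A : Scheme.{u}} {f : A ⟶ Spec (CommRingCat.of K)}

/-- an endomorphism over a proper base-scheme is proper -/
theorem isProper_of_endo (φ : A ⟶ A) (hφ : φ ≫ f = f) [IsProper f] : IsProper φ := by
  have : IsProper (φ ≫ f) := by rw [hφ]; infer_instance
  exact IsProper.of_comp φ f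

/-- an etale endomorphism over a proper base-scheme is finite -/
theorem isFinite_of_etale_endo (φ : A ⟶ A) (hφ : φ ≫ f = f) [IsProper f] [Etale φ] :
    IsFinite φ := by
  have := isProper_of_endo φ hφ
  have := locallyQuasiFinite_of_etale φ
  exact IsFinite.of_isProper_of_locallyQuasiFinite φ

/-- the total space of a morphism to the spectrum of a field with connected fibres is connected -/
theorem connectedSpace_of_connectedFibres
    (h : ∀ s : Spec (CommRingCat.of K), _root_.IsConnected (f.base ⁻¹' {s})) :
    ConnectedSpace A := by
  have hs : ∀ s t : Spec (CommRingCat.of K), s = t := fun s t => Subsingleton.elim s t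
  let s0 : Spec (CommRingCat.of K) := IsLocalRing.closedPoint K
  have huniv : (f.base ⁻¹' {s0}) = Set.univ := by
    ext x
    simp only [Set.mem_preimage, Set.mem_singleton_iff, Set.mem_univ, iff_true]
    exact hs _ _
  have := h s0
  rw [huniv] at this
  exact connectedSpace_iff_univ.mpr this

/-- an etale endomorphism over a proper connected base-scheme has constant rank -/
theorem exists_finrank_eq_of_etale_endo (φ : A ⟶ A) (hφ : φ ≫ f = f) [IsProper f] [Etale φ]
    (h : ∀ s : Spec (CommRingCat.of K), _root_.IsConnected (f.base ⁻¹' {s})) :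
    ∃ d : ℕ, ∀ a : A, φ.finrank a = d := by
  have := isFinite_of_etale_endo φ hφ
  have := connectedSpace_of_connectedFibres h
  have hloc := Scheme.Hom.isLocallyConstant_finrank φ
  obtain ⟨a0⟩ : Nonempty A := inferInstance
  exact ⟨φ.finrank a0, fun a => hloc.apply_eq_of_preconnectedSpace a a0⟩

end Fermat.Agent.S26lib
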