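/-
S26lib / Grp / Torsion (helper6, Project K, block (P1c) part 3).
If `[n]` is etale on an abelian scheme over an algebraically closed field then `[n]` is finite
flat of constant rank `d` and there are exactly `d` rational `n`-torsion points
(in the frozen formulation of S26).
-/
import Mathlib
import Fermat.Prelude.Def_JacJ1Iface
import Fermat.Prelude.Def_GoodReductionJacobian_RelativeGroupLawKernel
import Fermat.Agent.S26lib.Grp.Finite
import Fermat.Agent.S26lib.Grp.EtalePoints

set_option autoImplicit false

noncomputable section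

universe u

open CategoryTheory CategoryTheory.Limits AlgebraicGeometry NeronModelInfra GoodReductionJacobian

namespace Fermat.Agent.S26lib

variable {K : Type u} [Field K] {A : Scheme.{u}} {f : A ⟶ Spec (CommRingCat.of K)}

/-- `[n]` on a `T`-point is composition with the scheme morphism `[n]` -/
theorem nsmul_eq_comp_schemeNsmul (L : RelativeGroupLaw K f) {T : Scheme.{u}}
    (t : T ⟶ Spec (CommRingCat.of K)) (n : ℕ) (x : SchemeHomOver t f) :
    (L.nsmul t n x).1 = x.1 ≫ L.schemeNsmul n := by
  have h := L.nsmul_natural f t x.1 x.2 n RelativeGroupLaw.idPoint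
  have hx : schemeHomOverComp x.1 x.2 (RelativeGroupLaw.idPoint (f := f)) = x := by
    apply Subtype.ext
    simp
  rw [hx] at h
  rw [← h]
  rfl

/-- the torsion condition, as an equation of morphisms -/
theorem isTorsionPoint_iff_comp (L : RelativeGroupLaw K f) {T : Scheme.{u}}
    (t : T ⟶ Spec (CommRingCat.of K)) (n : ℕ) (x : SchemeHomOver t f) :
    L.IsTorsionPoint t n x ↔ x.1 ≫ L.schemeNsmul n = (L.one t).1 := by
  rw [← nsmul_eq_comp_schemeNsmul]
  exact ⟨fun h => congrArg Subtype.val h, fun h => Subtype.ext h⟩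

/-- rational `n`-torsion points are the rational points of the fibre of `[n]` over the unit -/
def torsionEquivFibrePoints (L : RelativeGroupLaw K f) (n : ℕ) :
    {x : SchemeHomOver (𝟙 (Spec (CommRingCat.of K))) f //
        L.IsTorsionPoint (𝟙 (Spec (CommRingCat.of K))) n x} ≃
      {p : Spec (CommRingCat.of K) ⟶
          pullback (L.schemeNsmul n) (L.one (𝟙 (Spec (CommRingCat.of K)))).1 //
        p ≫ pullback.snd (L.schemeNsmul n) (L.one (𝟙 (Spec (CommRingCat.of K)))).1 = 𝟙 _} where
  toFun x := ⟨pullback.lift x.1.1 (𝟙 _) (by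
      rw [Category.id_comp]; exact (isTorsionPoint_iff_comp L _ n x.1).mp x.2),
    pullback.lift_snd _ _ _⟩
  invFun p := ⟨⟨p.1 ≫ pullback.fst _ _, by
      have h1 : p.1 ≫ pullback.fst (L.schemeNsmul n) (L.one (𝟙 (Spec (CommRingCat.of K)))).1 ≫
          L.schemeNsmul n = (L.one (𝟙 (Spec (CommRingCat.of K)))).1 := by
        rw [pullback.condition, ← Category.assoc, p.2, Category.id_comp]
      have h2 : (p.1 ≫ pullback.fst (L.schemeNsmul n)
          (L.one (𝟙 (Spec (CommRingCat.of K)))).1) ≫ f =
          (p.1 ≫ pullback.fst (L.schemeNsmul n) (L.one (𝟙 (Spec (CommRingCat.of K)))).1) ≫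
            (L.schemeNsmul n ≫ f) :=
        (congrArg (fun g => (p.1 ≫ pullback.fst (L.schemeNsmul n)
          (L.one (𝟙 (Spec (CommRingCat.of K)))).1) ≫ g) (L.schemeNsmul_over n)).symm
      rw [h2]
      simp only [← Category.assoc]
      simp only [Category.assoc] at h1 ⊢
      rw [← Category.assoc (pullback.fst _ _), ← Category.assoc p.1]
      simp only [Category.assoc] at h1 ⊢
      rw [reassoc_of% h1]
      exact (L.one (𝟙 (Spec (CommRingCat.of K)))).2⟩, by
    rw [isTorsionPoint_iff_comp]
    show (p.1 ≫ pullback.fst _ _) ≫ L.schemeNsmul n = _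
    rw [Category.assoc, pullback.condition, ← Category.assoc, p.2, Category.id_comp]⟩
  left_inv x := by
    apply Subtype.ext
    apply Subtype.ext
    exact pullback.lift_fst _ _ _
  right_inv p := by
    apply Subtype.ext
    apply pullback.hom_ext
    · exact pullback.lift_fst _ _ _
    · rw [pullback.lift_snd]; exact p.2.symm

/-- **(P1c)** if `[n]` is etale then it is finite of constant rank `d` and there are exactly `d`
rational `n`-torsion points -/
theorem card_torsion_eq_finrank [IsAlgClosed K] (L : RelativeGroupLaw K f)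
    (hA : AbelianSchemePropertyBundle K f) (n : ℕ) [Etale (L.schemeNsmul n)] :
    IsFinite (L.schemeNsmul n) ∧ ∃ d : ℕ, (∀ a : A, (L.schemeNsmul n).finrank a = d) ∧
      Nat.card {x : SchemeHomOver (𝟙 (Spec (CommRingCat.of K))) f //
        L.IsTorsionPoint (𝟙 (Spec (CommRingCat.of K))) n x} = d := by
  have := hA.proper
  have hfin : IsFinite (L.schemeNsmul n) := isFinite_of_etale_endo _ (L.schemeNsmul_over n)
  obtain ⟨d, hd⟩ := exists_finrank_eq_of_etale_endo _ (L.schemeNsmul_over n) hA.connectedFibres
  refine ⟨hfin, d, hd, ?_⟩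
  rw [Nat.card_congr (torsionEquivFibrePoints L n), card_points_of_finite_etale,
    Scheme.Hom.finrank_pullback_snd, hd]

end Fermat.Agent.S26lib
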