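/-
S26lib / Grp / TorsionDegree (helper6, Project K): (P1c) + degree bridge.
If `[n]` is etale on an integral abelian scheme `A` over an algebraically closed field, then `[n]`
is surjective, induces a finite separable extension of the function field of `A`, and the number of
rational `n`-torsion points (frozen formulation of S26) is the degree of that extension.
-/
import Mathlib
import Fermat.Prelude.Def_JacJ1Iface
import Fermat.Prelude.Def_GoodReductionJacobian_RelativeGroupLawKernel
import Fermat.Agent.S26lib.Grp.Torsion
import Fermat.Agent.S26lib.Grp.Degree

set_option autoImplicit false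

noncomputable section

universe u

open CategoryTheory CategoryTheory.Limits AlgebraicGeometry NeronModelInfra GoodReductionJacobian

namespace Fermat.Agent.S26lib

variable {K : Type u} [Field K] {A : Scheme.{u}} {f : A ⟶ Spec (CommRingCat.of K)}

/-- an etale endomorphism of a proper connected scheme over a field is surjective -/
theorem surjective_of_etale_endo (φ : A ⟶ A) (hφ : φ ≫ f = f) [IsProper f] [Etale φ]
    (h : ∀ s : Spec (CommRingCat.of K), _root_.IsConnected (f.base ⁻¹' {s})) :
    Function.Surjective φ := by
  have := isFinite_of_etale_endo φ hφ
  obtain ⟨d, hd⟩ := exists_finrank_eq_of_etale_endo φ hφ h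
  have := connectedSpace_of_connectedFibres h
  obtain ⟨a0⟩ : Nonempty A := inferInstance
  have hd1 : 1 ≤ d := by
    rw [← hd (φ a0)]
    exact Scheme.Hom.one_le_finrank_map φ a0
  have : AlgebraicGeometry.Surjective φ := by
    rw [← Scheme.Hom.one_le_finrank_iff_surjective]
    intro a
    rw [hd a]
    exact hd1
  exact φ.surjective

theorem finite_of_finrank_pos_aux {E F : Type*} [Field E] [AddCommGroup F] [Module E F]
    (h : 0 < Module.finrank E F) : Module.Finite E F :=
  Module.finite_of_finrank_pos h

/-- the `A.functionField`-algebra structure on `A.functionField` given by pull-back along a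
dominant endomorphism `φ` (NOT the identity algebra: always pass it explicitly). -/
abbrev endoAlgebra [IsIntegral A] (φ : A ⟶ A) (h : DenseRange φ) :
    Algebra A.functionField A.functionField :=
  (ffMap φ h).hom.toAlgebra

/-- **(P1c) with the degree bridge.** All instances on `A.functionField` over itself are passed
explicitly, since the default instance would be the identity algebra. -/
theorem card_torsion_eq_finrank_functionField [IsAlgClosed K] [IsIntegral A]
    (L : RelativeGroupLaw K f) (hA : AbelianSchemePropertyBundle K f) (n : ℕ)
    [Etale (L.schemeNsmul n)] :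
    ∃ h : DenseRange (L.schemeNsmul n),
      @Algebra.IsSeparable A.functionField A.functionField _ _
        (endoAlgebra (L.schemeNsmul n) h) ∧
      @Module.Finite A.functionField A.functionField _ _
        (endoAlgebra (L.schemeNsmul n) h).toModule ∧
      Nat.card {x : SchemeHomOver (𝟙 (Spec (CommRingCat.of K))) f //
        L.IsTorsionPoint (𝟙 (Spec (CommRingCat.of K))) n x} =
          @Module.finrank A.functionField A.functionField _ _
            (endoAlgebra (L.schemeNsmul n) h).toModule := by
  have := hA.proper
  have hsurj := surjective_of_etale_endo (L.schemeNsmul n) (L.schemeNsmul_over n)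
    hA.connectedFibres
  have h : DenseRange (L.schemeNsmul n) := hsurj.denseRange
  obtain ⟨hfin, d, hd, hcard⟩ := card_torsion_eq_finrank L hA n
  refine ⟨h, ?_⟩
  have hdeg := finrank_functionField_eq_finrank (L.schemeNsmul n) h
  have hsep := isSeparable_functionField_of_etale (L.schemeNsmul n) h
  obtain ⟨a0⟩ : Nonempty A := inferInstance
  have hd1 : 1 ≤ d := by
    rw [← hd (L.schemeNsmul n a0)]
    exact Scheme.Hom.one_le_finrank_map (L.schemeNsmul n) a0
  have hdeg' : @Module.finrank A.functionField A.functionField _ _
      (endoAlgebra (L.schemeNsmul n) h).toModule = d :=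
    (hdeg a0).trans (hd a0)
  refine ⟨hsep, ?_, hcard.trans hdeg'.symm⟩
  exact @finite_of_finrank_pos_aux A.functionField A.functionField _ _
    (endoAlgebra (L.schemeNsmul n) h).toModule
    (lt_of_lt_of_le Nat.zero_lt_one (hd1.trans hdeg'.ge))

end Fermat.Agent.S26lib
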