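/-
S26lib / Grp / Nu (helper6, Project K): the comorphism of a dominant endomorphism as a
`K`-algebra endomorphism of the function field, and the (P1) statement in `fieldRange` form.
-/
import Mathlib
import Fermat.Prelude.Def_JacJ1Iface
import Fermat.Prelude.Def_GoodReductionJacobian_RelativeGroupLawKernel
import Fermat.Agent.S26lib.Grp.TorsionDegree

set_option autoImplicit false

noncomputable section

universe u

open CategoryTheory CategoryTheory.Limits AlgebraicGeometry NeronModelInfra GoodReductionJacobian

namespace Fermat.Agent.S26lib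

instance nonempty_top_opens (X : Scheme.{u}) [Nonempty X] : Nonempty (⊤ : X.Opens) :=
  ⟨⟨Classical.arbitrary X, trivial⟩⟩

instance nonempty_preimage_top {X Y : Scheme.{u}} [Nonempty X] (φ : X ⟶ Y) :
    Nonempty (φ ⁻¹ᵁ (⊤ : Y.Opens)) :=
  ⟨⟨Classical.arbitrary X, trivial⟩⟩

variable {K : Type u} [Field K] {A : Scheme.{u}} (f : A ⟶ Spec (CommRingCat.of K))

/-- the structure map `K → K(A)` -/
def kToFF [IsIntegral A] : CommRingCat.of K ⟶ A.functionField :=
  (Scheme.ΓSpecIso (CommRingCat.of K)).inv ≫ f.appTop ≫ A.germToFunctionField ⊤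

/-- the `K`-algebra structure on the function field of a `K`-scheme (a `def`, not an instance:
it depends on the structure morphism) -/
abbrev kAlgebraFF [IsIntegral A] : Algebra K A.functionField :=
  (kToFF f).hom.toAlgebra

variable {f}

theorem kToFF_ffMap [IsIntegral A] (φ : A ⟶ A) (hφ : φ ≫ f = f) (h : DenseRange φ) :
    kToFF f ≫ ffMap φ h = kToFF f := by
  have h1 : A.germToFunctionField ⊤ ≫ ffMap φ h =
      φ.app ⊤ ≫ A.germToFunctionField (φ ⁻¹ᵁ ⊤) := germToFunctionField_ffMap φ h ⊤
  have h2 : f.appTop ≫ φ.appTop = f.appTop := by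
    rw [← Scheme.Hom.comp_appTop, hφ]
  unfold kToFF
  simp only [Category.assoc]
  rw [h1]
  show _ ≫ f.appTop ≫ φ.appTop ≫ A.germToFunctionField ⊤ = _
  rw [reassoc_of% h2]

/-- the comorphism of a dominant `K`-endomorphism, as a `K`-algebra endomorphism of `K(A)` -/
def nuHom [IsIntegral A] (φ : A ⟶ A) (hφ : φ ≫ f = f) (h : DenseRange φ) :
    letI := kAlgebraFF f
    A.functionField →ₐ[K] A.functionField :=
  letI := kAlgebraFF f
  { (ffMap φ h).hom with
    commutes' := fun c => by
      have := kToFF_ffMap φ hφ h
      exact congrArg (fun g => g.hom c) this }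

/-- degree over the field range = degree for the algebra structure given by the map -/
theorem finrank_fieldRange_eq {k L L' : Type*} [Field k] [Field L] [Field L'] [Algebra k L]
    [Algebra k L'] (ν : L →ₐ[k] L') :
    Module.finrank ν.fieldRange L' =
      @Module.finrank L L' _ _ (ν.toRingHom.toAlgebra).toModule := by
  letI : Algebra L L' := ν.toRingHom.toAlgebra
  symm
  refine Algebra.finrank_eq_of_equiv_equiv (R₀ := L) (S₀ := L') (R₁ := ν.fieldRange) (S₁ := L')
    ν.equivFieldRange.toRingEquiv (RingEquiv.refl L') ?_
  ext x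
  rfl

/-- separability over the field range = separability for the algebra structure given by the map -/
theorem isSeparable_fieldRange_of {k L L' : Type*} [Field k] [Field L] [Field L'] [Algebra k L]
    [Algebra k L'] (ν : L →ₐ[k] L')
    (h : @Algebra.IsSeparable L L' _ _ ν.toRingHom.toAlgebra) :
    Algebra.IsSeparable ν.fieldRange L' := by
  letI : Algebra L L' := ν.toRingHom.toAlgebra
  refine Algebra.IsSeparable.of_equiv_equiv (A₁ := L) (B₁ := L') (A₂ := ν.fieldRange) (B₂ := L')
    ν.equivFieldRange.toRingEquiv (RingEquiv.refl L') ?_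
  ext x
  rfl

theorem finrank_pos_aux {E F : Type*} [Field E] [AddCommGroup F] [Module E F]
    [Module.Finite E F] [Nontrivial F] : 0 < Module.finrank E F :=
  Module.finrank_pos

theorem nuHom_apply [IsIntegral A] (φ : A ⟶ A) (hφ : φ ≫ f = f) (h : DenseRange φ)
    (x : A.functionField) :
    letI := kAlgebraFF f
    nuHom φ hφ h x = (ffMap φ h).hom x :=
  rfl

/-- **(P1), `fieldRange` form**: the number of rational `n`-torsion points is the degree of
`K(A)` over the image of the comorphism of `[n]`. -/
theorem card_torsion_eq_finrank_fieldRange [IsAlgClosed K] [IsIntegral A]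
    (L : RelativeGroupLaw K f) (hA : AbelianSchemePropertyBundle K f) (n : ℕ)
    [Etale (L.schemeNsmul n)] :
    ∃ h : DenseRange (L.schemeNsmul n),
      letI := kAlgebraFF f
      FiniteDimensional (nuHom (L.schemeNsmul n) (L.schemeNsmul_over n) h).fieldRange
        A.functionField ∧
      Algebra.IsSeparable (nuHom (L.schemeNsmul n) (L.schemeNsmul_over n) h).fieldRange
        A.functionField ∧
      Nat.card {x : SchemeHomOver (𝟙 (Spec (CommRingCat.of K))) f //
        L.IsTorsionPoint (𝟙 (Spec (CommRingCat.of K))) n x} =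
        Module.finrank (nuHom (L.schemeNsmul n) (L.schemeNsmul_over n) h).fieldRange
          A.functionField := by
  obtain ⟨h, hsep, hfin, hcard⟩ := card_torsion_eq_finrank_functionField L hA n
  refine ⟨h, ?_⟩
  letI := kAlgebraFF f
  have hfr := finrank_fieldRange_eq (nuHom (L.schemeNsmul n) (L.schemeNsmul_over n) h)
  have hcard' : Nat.card {x : SchemeHomOver (𝟙 (Spec (CommRingCat.of K))) f //
        L.IsTorsionPoint (𝟙 (Spec (CommRingCat.of K))) n x} =
        Module.finrank (nuHom (L.schemeNsmul n) (L.schemeNsmul_over n) h).fieldRange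
          A.functionField := hcard.trans hfr.symm
  have hpos : 0 < Module.finrank (nuHom (L.schemeNsmul n) (L.schemeNsmul_over n) h).fieldRange
      A.functionField := by
    rw [hfr]
    exact @finrank_pos_aux A.functionField A.functionField _ _
      (endoAlgebra (L.schemeNsmul n) h).toModule hfin _
  exact ⟨Module.finite_of_finrank_pos hpos,
    isSeparable_fieldRange_of (nuHom (L.schemeNsmul n) (L.schemeNsmul_over n) h) hsep, hcard'⟩

end Fermat.Agent.S26lib
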