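/-
S26lib / Grp / Integral (helper6, Project K).
A connected locally noetherian scheme all of whose stalks are domains is integral.
-/
import Mathlib
import Fermat.Prelude.Def_JacJ1Iface
import Fermat.Agent.S26lib.Grp.Finite

set_option autoImplicit false

noncomputable section

universe u

open CategoryTheory AlgebraicGeometry TopologicalSpace

namespace Fermat.Agent.S26lib

section Topology

variable {X : Type*} [TopologicalSpace X]

/-- the union of two overlapping preirreducible open sets is preirreducible -/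
theorem isPreirreducible_union_of_open {U₁ U₂ : Set X} (h₁ : IsPreirreducible U₁)
    (h₂ : IsPreirreducible U₂) (o₁ : IsOpen U₁) (o₂ : IsOpen U₂) (h : (U₁ ∩ U₂).Nonempty) :
    IsPreirreducible (U₁ ∪ U₂) := by
  -- every open set meeting the union meets the intersection
  have key : ∀ u : Set X, IsOpen u → ((U₁ ∪ U₂) ∩ u).Nonempty → (U₁ ∩ (U₂ ∩ u)).Nonempty := by
    rintro u hu ⟨a, ha | ha, hau⟩
    · obtain ⟨c, hc1, hcu, hc2⟩ := h₁ u U₂ hu o₂ ⟨a, ha, hau⟩ (by simpa using h)
      exact ⟨c, hc1, hc2, hcu⟩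
    · obtain ⟨b, hb1, hb2⟩ := h
      obtain ⟨c, hc2, hcu, hc1⟩ := h₂ u U₁ hu o₁ ⟨a, ha, hau⟩ ⟨b, hb2, hb1⟩
      exact ⟨c, hc1, hc2, hcu⟩
  intro u v hu hv hu' hv'
  obtain ⟨a, ha1, ha2, hau⟩ := key u hu hu'
  obtain ⟨b, hb1, hb2, hbv⟩ := key v hv hv'
  obtain ⟨c, hc1, ⟨hc2, hcu⟩, -, hcv⟩ :=
    h₁ (U₂ ∩ u) (U₂ ∩ v) (o₂.inter hu) (o₂.inter hv) ⟨a, ha1, ha2, hau⟩ ⟨b, hb1, hb2, hbv⟩
  exact ⟨c, Or.inl hc1, hcu, hcv⟩

/-- a connected space in which every point has a preirreducible open neighbourhood is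
irreducible -/
theorem irreducibleSpace_of_connected_of_locally_preirreducible [ConnectedSpace X]
    (h : ∀ x : X, ∃ U : Set X, IsOpen U ∧ x ∈ U ∧ IsPreirreducible U) : IrreducibleSpace X := by
  obtain ⟨x₀⟩ : Nonempty X := inferInstance
  let S : Set (Set X) := {U | IsOpen U ∧ x₀ ∈ U ∧ IsPreirreducible U}
  let W : Set X := ⋃₀ S
  have hWo : IsOpen W := isOpen_sUnion fun U hU => hU.1
  have hx₀ : x₀ ∈ W := by
    obtain ⟨U, hU⟩ := h x₀
    exact ⟨U, hU, hU.2.1⟩
  have hunion : ∀ U₁ ∈ S, ∀ U₂ ∈ S, U₁ ∪ U₂ ∈ S := fun U₁ h₁ U₂ h₂ =>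
    ⟨h₁.1.union h₂.1, Or.inl h₁.2.1,
      isPreirreducible_union_of_open h₁.2.2 h₂.2.2 h₁.1 h₂.1 ⟨x₀, h₁.2.1, h₂.2.1⟩⟩
  have hWirr : IsPreirreducible W := by
    rintro u v hu hv ⟨a, ⟨U₁, hU₁, ha⟩, hau⟩ ⟨b, ⟨U₂, hU₂, hb⟩, hbv⟩
    obtain ⟨c, hc, hcuv⟩ := (hunion U₁ hU₁ U₂ hU₂).2.2 u v hu hv ⟨a, Or.inl ha, hau⟩
      ⟨b, Or.inr hb, hbv⟩
    exact ⟨c, ⟨U₁ ∪ U₂, hunion U₁ hU₁ U₂ hU₂, hc⟩, hcuv⟩
  have hWc : IsClosed W := by
    rw [← closure_eq_iff_isClosed]
    refine subset_antisymm ?_ subset_closure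
    intro x hx
    obtain ⟨V, hVo, hxV, hVirr⟩ := h x
    obtain ⟨y, hyV, U, hU, hyU⟩ := mem_closure_iff.mp hx V hVo hxV
    have : V ∪ U ∈ S :=
      ⟨hVo.union hU.1, Or.inr hU.2.1,
        isPreirreducible_union_of_open hVirr hU.2.2 hVo hU.1 ⟨y, hyV, hyU⟩⟩
    exact ⟨V ∪ U, this, Or.inl hxV⟩
  have hWuniv : W = Set.univ := IsClopen.eq_univ ⟨hWc, hWo⟩ ⟨x₀, hx₀⟩
  have : PreirreducibleSpace X := ⟨hWuniv ▸ hWirr⟩
  exact { toPreirreducibleSpace := this, toNonempty := ⟨x₀⟩ }

end Topology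

section Algebra

variable {R : Type*} [CommRing R]

/-- if `R_p` is a domain, all minimal primes below `p` coincide -/
theorem minimalPrimes_le_unique (p : Ideal R) [p.IsPrime]
    [IsDomain (Localization.AtPrime p)] {q q' : Ideal R} (hq : q ∈ minimalPrimes R)
    (hq' : q' ∈ minimalPrimes R) (hqp : q ≤ p) (hq'p : q' ≤ p) : q = q' := by
  let k : Ideal R := RingHom.ker (algebraMap R (Localization.AtPrime p))
  have hk : k.IsPrime := RingHom.ker_isPrime _
  have hle : ∀ q'' : Ideal R, q''.IsPrime → q'' ≤ p → k ≤ q'' := by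
    intro q'' hq'' hq''p r hr
    rw [RingHom.mem_ker, IsLocalization.map_eq_zero_iff p.primeCompl] at hr
    obtain ⟨⟨s, hs⟩, hsr⟩ := hr
    have : s * r ∈ q'' := by rw [hsr]; exact q''.zero_mem
    rcases hq''.mem_or_mem this with h | h
    · exact absurd (hq''p h) hs
    · exact h
  have h1 : q = k := by
    have := hq.2 ⟨hk, bot_le⟩ (hle q hq.1.1 hqp)
    exact le_antisymm this (hle q hq.1.1 hqp)
  have h2 : q' = k := by
    have := hq'.2 ⟨hk, bot_le⟩ (hle q' hq'.1.1 hq'p)
    exact le_antisymm this (hle q' hq'.1.1 hq'p)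
  rw [h1, h2]

/-- in a noetherian ring all of whose localisations at primes are domains, every point of the
spectrum has a preirreducible open neighbourhood -/
theorem exists_isPreirreducible_nhd_primeSpectrum [IsNoetherianRing R]
    (h : ∀ p : PrimeSpectrum R, IsDomain (Localization.AtPrime p.asIdeal))
    (p : PrimeSpectrum R) :
    ∃ U : Set (PrimeSpectrum R), IsOpen U ∧ p ∈ U ∧ IsPreirreducible U := by
  classical
  obtain ⟨q, hq, hqp⟩ := Ideal.exists_minimalPrimes_le (I := (⊥ : Ideal R)) (J := p.asIdeal) bot_le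
  have hqmin : q ∈ minimalPrimes R := hq
  have hfin : (minimalPrimes R).Finite := minimalPrimes.finite_of_isNoetherianRing R
  let T : Set (PrimeSpectrum R) :=
    ⋃ q' ∈ (minimalPrimes R \ {q}), PrimeSpectrum.zeroLocus (q' : Set R)
  have hTc : IsClosed T :=
    (hfin.subset Set.diff_subset).isClosed_biUnion fun q' _ => PrimeSpectrum.isClosed_zeroLocus _
  refine ⟨Tᶜ, hTc.isOpen_compl, ?_, ?_⟩
  · intro hpT
    simp only [T, Set.mem_iUnion, exists_prop] at hpT
    obtain ⟨q', ⟨hq'min, hq'ne⟩, hq'p⟩ := hpT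
    haveI := h p
    exact hq'ne (minimalPrimes_le_unique p.asIdeal hq'min hqmin hq'p hqp)
  · have hsub : Tᶜ ⊆ PrimeSpectrum.zeroLocus (q : Set R) := by
      intro p' hp'
      obtain ⟨q'', hq'', hq''p'⟩ :=
        Ideal.exists_minimalPrimes_le (I := (⊥ : Ideal R)) (J := p'.asIdeal) bot_le
      by_cases hqq : q'' = q
      · subst hqq; exact hq''p'
      · exfalso
        apply hp'
        simp only [T, Set.mem_iUnion, exists_prop]
        exact ⟨q'', ⟨hq'', hqq⟩, hq''p'⟩
    have hirr : IsIrreducible (PrimeSpectrum.zeroLocus (q : Set R)) := by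
      rw [PrimeSpectrum.isIrreducible_zeroLocus_iff_of_radical _ hqmin.1.1.isRadical]
      exact hqmin.1.1
    exact hirr.isPreirreducible.open_subset hTc.isOpen_compl hsub

end Algebra

section Scheme

variable (X : Scheme.{u})

/-- in a locally noetherian scheme all of whose stalks are domains, every point has a
preirreducible open neighbourhood -/
theorem exists_isPreirreducible_nhd [IsLocallyNoetherian X]
    (h : ∀ x : X, IsDomain (X.presheaf.stalk x)) (x : X) :
    ∃ U : Set X, IsOpen U ∧ x ∈ U ∧ IsPreirreducible U := by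
  obtain ⟨U, hU, hxU⟩ : ∃ U : X.Opens, IsAffineOpen U ∧ x ∈ U := by
    obtain ⟨_, ⟨U, hU, rfl⟩, hx, -⟩ :=
      X.isBasis_affineOpens.exists_subset_of_mem_open (Set.mem_univ x) isOpen_univ
    exact ⟨U, hU, hx⟩
  haveI : IsNoetherianRing Γ(X, U) := IsLocallyNoetherian.component_noetherian ⟨U, hU⟩
  have hloc : ∀ p : PrimeSpectrum Γ(X, U), IsDomain (Localization.AtPrime p.asIdeal) := by
    intro p
    have hy : hU.fromSpec p ∈ U := (hU.isoSpec.inv p).2
    letI : Algebra Γ(X, U) (X.presheaf.stalk (hU.fromSpec p)) :=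
      TopCat.Presheaf.algebra_section_stalk X.presheaf ⟨hU.fromSpec p, hy⟩
    haveI : IsLocalization.AtPrime (X.presheaf.stalk (hU.fromSpec p)) p.asIdeal :=
      hU.isLocalization_stalk' p hy
    haveI := h (hU.fromSpec p)
    exact (IsLocalization.algEquiv p.asIdeal.primeCompl (Localization.AtPrime p.asIdeal)
      (X.presheaf.stalk (hU.fromSpec p))).toMulEquiv.isDomain _
  obtain ⟨V, hVo, hpV, hVirr⟩ :=
    exists_isPreirreducible_nhd_primeSpectrum hloc (hU.primeIdealOf ⟨x, hxU⟩)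
  refine ⟨hU.fromSpec '' V, hU.fromSpec.isOpenEmbedding.isOpenMap V hVo, ?_, ?_⟩
  · exact ⟨_, hpV, hU.fromSpec_primeIdealOf ⟨x, hxU⟩⟩
  · exact hVirr.image _ hU.fromSpec.continuous.continuousOn

/-- **a connected locally noetherian scheme all of whose stalks are domains is integral** -/
theorem isIntegral_of_connected_of_isDomain_stalk [IsLocallyNoetherian X] [ConnectedSpace X]
    (h : ∀ x : X, IsDomain (X.presheaf.stalk x)) : IsIntegral X := by
  haveI : ∀ x : X, _root_.IsReduced (X.presheaf.stalk x) := fun x => by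
    haveI := h x; infer_instance
  haveI : IsReduced X := isReduced_of_isReduced_stalk X
  haveI : IrreducibleSpace X :=
    irreducibleSpace_of_connected_of_locally_preirreducible (exists_isPreirreducible_nhd X h)
  exact isIntegral_of_irreducibleSpace_of_isReduced X

end Scheme

section Abelian

open GoodReductionJacobian

variable {K : Type u} [Field K] {A : Scheme.{u}} {f : A ⟶ Spec (CommRingCat.of K)}

/-- the total space of an abelian scheme over a field is integral as soon as its stalks are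
domains (which holds because it is smooth over a field) -/
theorem isIntegral_of_abelianScheme (hA : AbelianSchemePropertyBundle K f)
    (h : ∀ x : A, IsDomain (A.presheaf.stalk x)) : IsIntegral A := by
  haveI := hA.proper
  haveI : IsLocallyNoetherian A := LocallyOfFiniteType.isLocallyNoetherian f
  haveI := connectedSpace_of_connectedFibres hA.connectedFibres
  exact isIntegral_of_connected_of_isDomain_stalk A h

end Abelian

end Fermat.Agent.S26lib
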