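/-
S26lib / Grp / P1 (helper6, Project K).
**(P1), hypothesis-free form**: for `(n : K) ≠ 0` the number of rational `n`-torsion points of an
abelian variety `A` over an algebraically closed field equals the degree of `K(A)` over the image
of the comorphism of `[n]`; this extension is finite and separable.
(`Grp/Nu.card_torsion_eq_finrank_fieldRange` + helper3's `NMul/Etale.etale_schemeNsmul_of_field`.)
-/
import Fermat.Agent.S26lib.Grp.Nu
import Fermat.Agent.S26lib.NMul.Etale

set_option autoImplicit false

noncomputable section

universe u

open CategoryTheory CategoryTheory.Limits AlgebraicGeometry NeronModelInfra GoodReductionJacobian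

namespace Fermat.Agent.S26lib

variable {K : Type u} [Field K] {A : Scheme.{u}} {f : A ⟶ Spec (CommRingCat.of K)}

/-- **(P1)** with the hypotheses of S26 (plus integrality of `A`). -/
theorem card_torsion_eq_finrank_fieldRange_of_ne_zero [IsAlgClosed K] [IsIntegral A]
    (L : RelativeGroupLaw K f) (hc : L.IsCommutative) (hA : AbelianSchemePropertyBundle K f)
    (g : ℕ) [SmoothOfRelativeDimension g f] (n : ℕ) (hn : (n : K) ≠ 0) :
    ∃ h : DenseRange (L.schemeNsmul n),
      letI := kAlgebraFF f
      FiniteDimensional (nuHom (L.schemeNsmul n) (L.schemeNsmul_over n) h).fieldRange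
        A.functionField ∧
      Algebra.IsSeparable (nuHom (L.schemeNsmul n) (L.schemeNsmul_over n) h).fieldRange
        A.functionField ∧
      Nat.card {x : SchemeHomOver (𝟙 (Spec (CommRingCat.of K))) f //
        L.IsTorsionPoint (𝟙 (Spec (CommRingCat.of K))) n x} =
        Module.finrank (nuHom (L.schemeNsmul n) (L.schemeNsmul_over n) h).fieldRange
          A.functionField := by
  haveI : Etale (L.schemeNsmul n) := NMul.etale_schemeNsmul_of_field f L hc g n hn
  exact card_torsion_eq_finrank_fieldRange L hA n

/-- `[n]` is finite, étale and surjective for `(n : K) ≠ 0`. -/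
theorem finite_etale_surjective_schemeNsmul [IsAlgClosed K]
    (L : RelativeGroupLaw K f) (hc : L.IsCommutative) (hA : AbelianSchemePropertyBundle K f)
    (g : ℕ) [SmoothOfRelativeDimension g f] (n : ℕ) (hn : (n : K) ≠ 0) :
    IsFinite (L.schemeNsmul n) ∧ Etale (L.schemeNsmul n) ∧
      Function.Surjective (L.schemeNsmul n) := by
  haveI : Etale (L.schemeNsmul n) := NMul.etale_schemeNsmul_of_field f L hc g n hn
  haveI := hA.proper
  exact ⟨(card_torsion_eq_finrank L hA n).1, inferInstance,
    surjective_of_etale_endo _ (L.schemeNsmul_over n) hA.connectedFibres⟩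

end Fermat.Agent.S26lib
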